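/-
Project MW (S17), global leaf [GKL] (helper18): SUMMATION OVER THE PLACES of a number field
(Mathlib only).  Prefix `mw_gkl_`.

`mw_gkl_S Φ = ∑_{w arch, with multiplicity} Φ w + ∑ᶠ_{w nonarch} Φ w`.

* `mw_gkl_S_logNorm` : `S (w ↦ log ‖v‖_w) = logHeight v` for EVERY tuple `v` (also `v = 0`);
* `mw_gkl_S_log`     : the product formula `S (w ↦ log |x|_w) = 0` (`x ≠ 0`);
* `mw_gkl_S_add/_sub/_smul/_sum` : linearity on functions with finite nonarchimedean support;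
* `mw_gkl_S_le`      : monotonicity;
* `mw_gkl_exists_prime` : every finite place lies over a rational prime;
* `mw_gkl_S_bound`   : `|Φ w| ≤ γ` at the infinite places and `|Φ w| ≤ -c_p log |p|_w` at the places
  over `p` ⟹ `|S Φ| ≤ [K : ℚ] · (γ + ∑_p c_p log p)`.
-/
import Mathlib

set_option autoImplicit false

noncomputable section

namespace Fermat.Agent.MW

open Height AdmissibleAbsValues NumberField

variable {K : Type*} [Field K] [NumberField K]

/-- the sum over all places, archimedean ones with their multiplicity -/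
def mw_gkl_S (Φ : AbsoluteValue K ℝ → ℝ) : ℝ :=
  (archAbsVal.map Φ).sum + ∑ᶠ v : nonarchAbsVal (K := K), Φ v.val

/-- finite support at the nonarchimedean places -/
def mw_gkl_Fin (Φ : AbsoluteValue K ℝ → ℝ) : Prop :=
  (Function.support fun v : nonarchAbsVal (K := K) => Φ v.val).Finite

theorem mw_gkl_fin_zero : mw_gkl_Fin (fun _ : AbsoluteValue K ℝ => (0 : ℝ)) := by
  simp [mw_gkl_Fin]

theorem mw_gkl_fin_add {Φ Ψ : AbsoluteValue K ℝ → ℝ} (hΦ : mw_gkl_Fin Φ) (hΨ : mw_gkl_Fin Ψ) :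
    mw_gkl_Fin (fun w => Φ w + Ψ w) :=
  (hΦ.union hΨ).subset (Function.support_add _ _)

theorem mw_gkl_fin_smul (c : ℝ) {Φ : AbsoluteValue K ℝ → ℝ} (hΦ : mw_gkl_Fin Φ) :
    mw_gkl_Fin (fun w => c * Φ w) := by
  refine hΦ.subset fun v hv => ?_
  simp only [Function.mem_support] at hv ⊢
  intro h
  exact hv (by rw [h, mul_zero])

theorem mw_gkl_fin_neg {Φ : AbsoluteValue K ℝ → ℝ} (hΦ : mw_gkl_Fin Φ) :
    mw_gkl_Fin (fun w => -Φ w) := by
  have := mw_gkl_fin_smul (-1) hΦ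
  simpa using this

theorem mw_gkl_fin_sub {Φ Ψ : AbsoluteValue K ℝ → ℝ} (hΦ : mw_gkl_Fin Φ) (hΨ : mw_gkl_Fin Ψ) :
    mw_gkl_Fin (fun w => Φ w - Ψ w) := by
  have := mw_gkl_fin_add hΦ (mw_gkl_fin_neg hΨ)
  simpa [sub_eq_add_neg] using this

theorem mw_gkl_fin_sum {ι : Type*} (T : Finset ι) {Φ : ι → AbsoluteValue K ℝ → ℝ}
    (h : ∀ i ∈ T, mw_gkl_Fin (Φ i)) : mw_gkl_Fin (fun w => ∑ i ∈ T, Φ i w) := by
  classical
  induction T using Finset.induction_on with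
  | empty => simpa using mw_gkl_fin_zero (K := K)
  | insert a T ha ih =>
    have h1 := mw_gkl_fin_add (h a (Finset.mem_insert_self a T))
      (ih fun i hi => h i (Finset.mem_insert_of_mem hi))
    refine h1.subset fun v hv => ?_
    simp only [Function.mem_support] at hv ⊢
    rwa [Finset.sum_insert ha] at hv

theorem mw_gkl_S_zero : mw_gkl_S (fun _ : AbsoluteValue K ℝ => (0 : ℝ)) = 0 := by
  simp [mw_gkl_S]

theorem mw_gkl_S_add {Φ Ψ : AbsoluteValue K ℝ → ℝ} (hΦ : mw_gkl_Fin Φ) (hΨ : mw_gkl_Fin Ψ) :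
    mw_gkl_S (fun w => Φ w + Ψ w) = mw_gkl_S Φ + mw_gkl_S Ψ := by
  rw [mw_gkl_S, mw_gkl_S, mw_gkl_S, Multiset.sum_map_add, finsum_add_distrib hΦ hΨ]
  ring

theorem mw_gkl_S_smul (c : ℝ) (Φ : AbsoluteValue K ℝ → ℝ) :
    mw_gkl_S (fun w => c * Φ w) = c * mw_gkl_S Φ := by
  rw [mw_gkl_S, mw_gkl_S, Multiset.sum_map_mul_left, ← mul_finsum, mul_add]

theorem mw_gkl_S_neg (Φ : AbsoluteValue K ℝ → ℝ) :
    mw_gkl_S (fun w => -Φ w) = -mw_gkl_S Φ := by
  have := mw_gkl_S_smul (-1) Φ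
  simpa using this

theorem mw_gkl_S_sub {Φ Ψ : AbsoluteValue K ℝ → ℝ} (hΦ : mw_gkl_Fin Φ) (hΨ : mw_gkl_Fin Ψ) :
    mw_gkl_S (fun w => Φ w - Ψ w) = mw_gkl_S Φ - mw_gkl_S Ψ := by
  have := mw_gkl_S_add hΦ (mw_gkl_fin_neg hΨ)
  rw [mw_gkl_S_neg] at this
  simpa [sub_eq_add_neg] using this

theorem mw_gkl_S_sum {ι : Type*} (T : Finset ι) {Φ : ι → AbsoluteValue K ℝ → ℝ}
    (h : ∀ i ∈ T, mw_gkl_Fin (Φ i)) :
    mw_gkl_S (fun w => ∑ i ∈ T, Φ i w) = ∑ i ∈ T, mw_gkl_S (Φ i) := by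
  classical
  induction T using Finset.induction_on with
  | empty => simpa using mw_gkl_S_zero (K := K)
  | insert a T ha ih =>
    have h1 := mw_gkl_S_add (h a (Finset.mem_insert_self a T))
      (mw_gkl_fin_sum T fun i hi => h i (Finset.mem_insert_of_mem hi))
    rw [Finset.sum_insert ha, ← ih fun i hi => h i (Finset.mem_insert_of_mem hi), ← h1]
    congr 1
    funext w
    rw [Finset.sum_insert ha]

theorem mw_gkl_S_le {Φ Ψ : AbsoluteValue K ℝ → ℝ} (hΦ : mw_gkl_Fin Φ) (hΨ : mw_gkl_Fin Ψ)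
    (harch : ∀ w ∈ archAbsVal (K := K), Φ w ≤ Ψ w)
    (hnon : ∀ w ∈ nonarchAbsVal (K := K), Φ w ≤ Ψ w) : mw_gkl_S Φ ≤ mw_gkl_S Ψ := by
  rw [mw_gkl_S, mw_gkl_S]
  refine add_le_add (Multiset.sum_map_le_sum_map _ _ harch) ?_
  exact finsum_le_finsum' hΦ hΨ fun v => hnon v.1 v.2

/-! ### the two parts -/

/-- the archimedean part -/
def mw_gkl_Sa (Φ : AbsoluteValue K ℝ → ℝ) : ℝ := (archAbsVal.map Φ).sum

/-- the nonarchimedean part -/
def mw_gkl_Sf (Φ : AbsoluteValue K ℝ → ℝ) : ℝ := ∑ᶠ v : nonarchAbsVal (K := K), Φ v.val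

theorem mw_gkl_S_eq (Φ : AbsoluteValue K ℝ → ℝ) : mw_gkl_S Φ = mw_gkl_Sa Φ + mw_gkl_Sf Φ := rfl

theorem mw_gkl_Sf_le {Φ Ψ : AbsoluteValue K ℝ → ℝ} (hΦ : mw_gkl_Fin Φ) (hΨ : mw_gkl_Fin Ψ)
    (hnon : ∀ w ∈ nonarchAbsVal (K := K), Φ w ≤ Ψ w) : mw_gkl_Sf Φ ≤ mw_gkl_Sf Ψ :=
  finsum_le_finsum' hΦ hΨ fun v => hnon v.1 v.2

theorem mw_gkl_Sf_neg (Φ : AbsoluteValue K ℝ → ℝ) :
    mw_gkl_Sf (fun w => -Φ w) = -mw_gkl_Sf Φ := by
  rw [mw_gkl_Sf, mw_gkl_Sf]
  exact finsum_neg_distrib _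

theorem mw_gkl_Sf_smul (c : ℝ) (Φ : AbsoluteValue K ℝ → ℝ) :
    mw_gkl_Sf (fun w => c * Φ w) = c * mw_gkl_Sf Φ := by
  rw [mw_gkl_Sf, mw_gkl_Sf, ← mul_finsum]

theorem mw_gkl_Sf_add {Φ Ψ : AbsoluteValue K ℝ → ℝ} (hΦ : mw_gkl_Fin Φ) (hΨ : mw_gkl_Fin Ψ) :
    mw_gkl_Sf (fun w => Φ w + Ψ w) = mw_gkl_Sf Φ + mw_gkl_Sf Ψ :=
  finsum_add_distrib hΦ hΨ

theorem mw_gkl_Sf_sum {ι : Type*} (T : Finset ι) {Φ : ι → AbsoluteValue K ℝ → ℝ}
    (h : ∀ i ∈ T, mw_gkl_Fin (Φ i)) :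
    mw_gkl_Sf (fun w => ∑ i ∈ T, Φ i w) = ∑ i ∈ T, mw_gkl_Sf (Φ i) := by
  classical
  induction T using Finset.induction_on with
  | empty => simp [mw_gkl_Sf]
  | insert a T ha ih =>
    have h1 := mw_gkl_Sf_add (h a (Finset.mem_insert_self a T))
      (mw_gkl_fin_sum T fun i hi => h i (Finset.mem_insert_of_mem hi))
    rw [Finset.sum_insert ha, ← ih fun i hi => h i (Finset.mem_insert_of_mem hi), ← h1]
    congr 1
    funext w
    rw [Finset.sum_insert ha]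

theorem mw_gkl_Sf_abs_le {Φ B : AbsoluteValue K ℝ → ℝ} (hΦ : mw_gkl_Fin Φ) (hB : mw_gkl_Fin B)
    (h : ∀ w ∈ nonarchAbsVal (K := K), |Φ w| ≤ B w) : |mw_gkl_Sf Φ| ≤ mw_gkl_Sf B := by
  rw [abs_le]
  constructor
  · rw [← mw_gkl_Sf_neg]
    exact mw_gkl_Sf_le (mw_gkl_fin_neg hB) hΦ fun w hw => (abs_le.mp (h w hw)).1
  · exact mw_gkl_Sf_le hΦ hB fun w hw => (abs_le.mp (h w hw)).2

theorem mw_gkl_card_arch :
    Multiset.card (archAbsVal (K := K)) = Module.finrank ℚ K := by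
  have := totalWeight_eq_finrank (K := K)
  rwa [totalWeight] at this

theorem mw_gkl_Sa_abs_le {Φ : AbsoluteValue K ℝ → ℝ} {γ : ℝ}
    (h : ∀ w ∈ archAbsVal (K := K), |Φ w| ≤ γ) :
    |mw_gkl_Sa Φ| ≤ (Module.finrank ℚ K : ℝ) * γ := by
  rw [mw_gkl_Sa]
  refine (Multiset.abs_sum_le_sum_abs).trans ?_
  rw [Multiset.map_map]
  have := Multiset.sum_le_card_nsmul ((archAbsVal (K := K)).map (abs ∘ Φ)) γ (by
    intro x hx
    obtain ⟨w, hw, rfl⟩ := Multiset.mem_map.mp hx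
    exact h w hw)
  rwa [Multiset.card_map, mw_gkl_card_arch, nsmul_eq_mul] at this

theorem mw_gkl_Sa_le {Φ Ψ : AbsoluteValue K ℝ → ℝ}
    (harch : ∀ w ∈ archAbsVal (K := K), Φ w ≤ Ψ w) : mw_gkl_Sa Φ ≤ mw_gkl_Sa Ψ :=
  Multiset.sum_map_le_sum_map _ _ harch

theorem mw_gkl_Sa_add (Φ Ψ : AbsoluteValue K ℝ → ℝ) :
    mw_gkl_Sa (fun w => Φ w + Ψ w) = mw_gkl_Sa Φ + mw_gkl_Sa Ψ := by
  rw [mw_gkl_Sa, mw_gkl_Sa, mw_gkl_Sa, Multiset.sum_map_add]

theorem mw_gkl_Sa_const (c : ℝ) :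
    mw_gkl_Sa (fun _ : AbsoluteValue K ℝ => c) = (Module.finrank ℚ K : ℝ) * c := by
  rw [mw_gkl_Sa, Multiset.map_const', Multiset.sum_replicate, mw_gkl_card_arch, nsmul_eq_mul]

/-- the archimedean absolute values of a natural number -/
theorem mw_gkl_arch_natCast {w : AbsoluteValue K ℝ} (hw : w ∈ archAbsVal (K := K)) (n : ℕ) :
    w (n : K) = n := by
  have hw' : IsInfinitePlace w := mem_multisetInfinitePlace.mp hw
  obtain ⟨φ, rfl⟩ := hw'
  rw [place_apply, map_natCast, Complex.norm_natCast]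

theorem mw_gkl_Sa_log_natCast (n : ℕ) :
    mw_gkl_Sa (fun w : AbsoluteValue K ℝ => Real.log (w (n : K)))
      = (Module.finrank ℚ K : ℝ) * Real.log n := by
  rw [mw_gkl_Sa, Multiset.map_congr rfl (fun w hw => by rw [mw_gkl_arch_natCast hw n]),
    Multiset.map_const', Multiset.sum_replicate, mw_gkl_card_arch, nsmul_eq_mul]

/-! ### norms and the product formula -/

omit [NumberField K] in
theorem mw_gkl_iSup_pos {ι : Type*} [Finite ι] {v : ι → K} (hv : v ≠ 0) (w : AbsoluteValue K ℝ) :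
    0 < ⨆ i, w (v i) := by
  obtain ⟨i, hi⟩ := Function.ne_iff.mp hv
  exact lt_of_lt_of_le (w.pos hi) (Finite.le_ciSup_of_le i le_rfl)

theorem mw_gkl_finMulSupport_iSup {ι : Type*} [Finite ι] {v : ι → K} (hv : v ≠ 0) :
    (Function.mulSupport fun w : nonarchAbsVal (K := K) => ⨆ i, w.val (v i)).Finite := by
  have hfin : (⋃ i : {j // v j ≠ 0},
      Function.mulSupport fun w : nonarchAbsVal (K := K) => w.val (v i)).Finite :=
    Set.finite_iUnion fun i => hasFiniteMulSupport i.2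
  refine hfin.subset fun w hw => ?_
  rw [Function.mem_mulSupport] at hw
  rw [Set.mem_iUnion]
  by_contra hcon
  push Not at hcon
  apply hw
  obtain ⟨i₀, hi₀⟩ := Function.ne_iff.mp hv
  have : Nonempty ι := ⟨i₀⟩
  apply le_antisymm
  · refine ciSup_le fun i => ?_
    by_cases hi : v i = 0
    · rw [hi, map_zero]; exact zero_le_one
    · have := hcon ⟨i, hi⟩
      rw [Function.mem_mulSupport, not_not] at this
      exact le_of_eq this
  · have := hcon ⟨i₀, hi₀⟩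
    rw [Function.mem_mulSupport, not_not] at this
    rw [← this]
    exact Finite.le_ciSup_of_le i₀ le_rfl

/-- **the global sum of the local log-norms is the height**, for every tuple -/
theorem mw_gkl_S_logNorm {ι : Type*} [Finite ι] (v : ι → K) :
    mw_gkl_Fin (fun w : AbsoluteValue K ℝ => Real.log (⨆ i, w (v i))) ∧
      mw_gkl_S (fun w : AbsoluteValue K ℝ => Real.log (⨆ i, w (v i))) = logHeight v := by
  by_cases hv : v = 0
  · subst hv
    have h0 : (fun w : AbsoluteValue K ℝ => Real.log (⨆ i : ι, w ((0 : ι → K) i)))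
        = fun _ => (0 : ℝ) := by
      funext w
      simp
    rw [h0, logHeight_zero]
    exact ⟨mw_gkl_fin_zero, mw_gkl_S_zero⟩
  · have hfin := mw_gkl_finMulSupport_iSup hv
    constructor
    · refine hfin.subset fun w hw => ?_
      simp only [Function.mem_support] at hw
      rw [Function.mem_mulSupport]
      intro h1
      exact hw (by rw [h1, Real.log_one])
    · rw [logHeight_eq_log_mulHeight, Height.mulHeight_eq hv, mw_gkl_S]
      have hpos : ∀ w : AbsoluteValue K ℝ, 0 < ⨆ i, w (v i) := mw_gkl_iSup_pos hv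
      have h1 : ((archAbsVal (K := K)).map fun w => ⨆ i, w (v i)).prod ≠ 0 := by
        rw [Ne, Multiset.prod_eq_zero_iff]
        intro h0
        obtain ⟨w, -, hw⟩ := Multiset.mem_map.mp h0
        exact (hpos w).ne' hw
      have h2 : (∏ᶠ w : nonarchAbsVal (K := K), ⨆ i, w.val (v i)) ≠ 0 :=
        (finprod_induction (fun x : ℝ => 0 < x) zero_lt_one (fun _ _ => mul_pos)
          (fun w : nonarchAbsVal (K := K) => hpos w.val)).ne'
      rw [Real.log_mul h1 h2, Real.log_multiset_prod (by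
        intro x hx
        obtain ⟨w, -, rfl⟩ := Multiset.mem_map.mp hx
        exact (hpos w).ne'), Multiset.map_map,
        Real.log_finprod fun w : nonarchAbsVal (K := K) => hpos w.val]
      rfl

/-- **the product formula**, logarithmic form (also true for `x = 0`: `Real.log 0 = 0`) -/
theorem mw_gkl_S_log (x : K) :
    mw_gkl_Fin (fun w : AbsoluteValue K ℝ => Real.log (w x)) ∧
      mw_gkl_S (fun w : AbsoluteValue K ℝ => Real.log (w x)) = 0 := by
  have h := mw_gkl_S_logNorm (K := K) (fun _ : Unit => x)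
  have e : (fun w : AbsoluteValue K ℝ => Real.log (⨆ _ : Unit, w x))
      = fun w => Real.log (w x) := by
    funext w
    rw [ciSup_const]
  rw [e, logHeight_eq_zero_of_subsingleton] at h
  exact h

theorem mw_gkl_fin_log (x : K) : mw_gkl_Fin (fun w : AbsoluteValue K ℝ => Real.log (w x)) :=
  (mw_gkl_S_log x).1

/-! ### primes below finite places -/

theorem mw_gkl_exists_prime_mem {R : Type*} [CommRing R] (P : Ideal R) [P.IsPrime] :
    ∀ n : ℕ, 2 ≤ n → (n : R) ∈ P → ∃ p : ℕ, p.Prime ∧ (p : R) ∈ P := by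
  intro n
  induction n using Nat.strong_induction_on with
  | _ n ih =>
    intro hn hmem
    by_cases hp : n.Prime
    · exact ⟨n, hp, hmem⟩
    · obtain ⟨m, hm1, hm2, hmn⟩ := Nat.exists_dvd_of_not_prime2 hn hp
      obtain ⟨k, hk⟩ := hm1
      have hk2 : 2 ≤ k := by
        rcases Nat.lt_or_ge k 2 with h | h
        · interval_cases k
          · omega
          · omega
        · exact h
      have hkn : k < n := by
        rw [hk]
        nlinarith
      rw [hk, Nat.cast_mul] at hmem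
      rcases Ideal.IsPrime.mem_or_mem inferInstance hmem with h | h
      · exact ih m hmn hm2 h
      · exact ih k hkn hk2 h

/-- every finite place lies over a rational prime -/
theorem mw_gkl_exists_prime {w : AbsoluteValue K ℝ} (hw : w ∈ nonarchAbsVal (K := K)) :
    ∃ p : ℕ, p.Prime ∧ w (p : K) < 1 := by
  obtain ⟨v, rfl⟩ : IsFinitePlace w := hw
  have hmem := Ideal.absNorm_mem v.asIdeal
  have h1 := NumberField.HeightOneSpectrum.one_lt_absNorm v
  have : v.asIdeal.IsPrime := v.isPrime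
  obtain ⟨p, hp, hpm⟩ := mw_gkl_exists_prime_mem v.asIdeal _ (by omega) hmem
  refine ⟨p, hp, ?_⟩
  have := (FinitePlace.norm_lt_one_iff_mem K v (p : 𝓞 K)).mpr hpm
  rw [map_natCast] at this
  rwa [place_apply]

/-! ### the global bound -/

theorem mw_gkl_S_bound {γ : ℝ} {cp : ℕ → ℝ} (hcp : ∀ p, 0 ≤ cp p)
    (hfin : {p | cp p ≠ 0}.Finite) {Φ : AbsoluteValue K ℝ → ℝ} (hΦ : mw_gkl_Fin Φ)
    (harch : ∀ w ∈ archAbsVal (K := K), |Φ w| ≤ γ)
    (hnon : ∀ w ∈ nonarchAbsVal (K := K), ∀ p : ℕ, p.Prime → w (p : K) < 1 →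
      |Φ w| ≤ -(cp p * Real.log (w (p : K)))) :
    |mw_gkl_S Φ| ≤ (Module.finrank ℚ K : ℝ) * (γ + ∑ p ∈ hfin.toFinset, cp p * Real.log p) := by
  classical
  set B : AbsoluteValue K ℝ → ℝ := fun w => ∑ p ∈ hfin.toFinset, -cp p * Real.log (w (p : K))
    with hB
  have hBfin : mw_gkl_Fin B :=
    mw_gkl_fin_sum _ fun p _ => mw_gkl_fin_smul _ (mw_gkl_fin_log _)
  have hterm : ∀ w ∈ nonarchAbsVal (K := K), ∀ p : ℕ, 0 ≤ -cp p * Real.log (w (p : K)) := by
    intro w hw p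
    have h1 : w (p : K) ≤ 1 := (isNonarchimedean w hw).apply_natCast_le_one
    have h2 : Real.log (w (p : K)) ≤ 0 := Real.log_nonpos (w.nonneg _) h1
    have := hcp p
    nlinarith
  have hBle : ∀ w ∈ nonarchAbsVal (K := K), |Φ w| ≤ B w := by
    intro w hw
    obtain ⟨p, hp, hp1⟩ := mw_gkl_exists_prime hw
    have h1 := hnon w hw p hp hp1
    by_cases hc : cp p = 0
    · rw [hc, zero_mul, neg_zero] at h1
      exact h1.trans (Finset.sum_nonneg fun q _ => hterm w hw q)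
    · have hmem : p ∈ hfin.toFinset := by
        rw [Set.Finite.mem_toFinset]
        exact hc
      have := Finset.single_le_sum (f := fun q => -cp q * Real.log (w (q : K)))
        (fun q _ => hterm w hw q) hmem
      refine h1.trans (le_trans (le_of_eq ?_) this)
      ring
  have h1 := mw_gkl_Sf_abs_le hΦ hBfin hBle
  have h2 := mw_gkl_Sa_abs_le harch
  have hSfB : mw_gkl_Sf B
      = (Module.finrank ℚ K : ℝ) * ∑ p ∈ hfin.toFinset, cp p * Real.log p := by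
    rw [hB, mw_gkl_Sf_sum _ fun p _ => mw_gkl_fin_smul _ (mw_gkl_fin_log _), Finset.mul_sum]
    refine Finset.sum_congr rfl fun p _ => ?_
    rw [mw_gkl_Sf_smul]
    have h3 := (mw_gkl_S_log (p : K)).2
    rw [mw_gkl_S_eq, mw_gkl_Sa_log_natCast] at h3
    have : mw_gkl_Sf (fun w : AbsoluteValue K ℝ => Real.log (w (p : K)))
        = -((Module.finrank ℚ K : ℝ) * Real.log p) := by linarith
    rw [this]
    ring
  rw [mw_gkl_S_eq, mul_add]
  calc |mw_gkl_Sa Φ + mw_gkl_Sf Φ| ≤ |mw_gkl_Sa Φ| + |mw_gkl_Sf Φ| := abs_add_le _ _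
    _ ≤ (Module.finrank ℚ K : ℝ) * γ + mw_gkl_Sf B := add_le_add h2 h1
    _ = _ := by rw [hSfB]

end Fermat.Agent.MW
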