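/-
Project MW (S17), global leaf [GKL] (helper18): FROM LOCAL TO GLOBAL — the abstract summation of a
local estimate of the shape of `[KLμ]` over all places of a number field `K' ≤ Q̄`, with `[ABS]`.
Prefix `mw_gkl_`.
-/
import Fermat.Agent.MW.Core.LocalAux
import Fermat.Agent.MW.Global.GKL.Sum

set_option autoImplicit false
set_option linter.unusedSectionVars false

noncomputable section

namespace Fermat.Agent.MW

open Height AdmissibleAbsValues NumberField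
open scoped Classical

variable (K' : IntermediateField ℚ mw_K) [NumberField ↥K']

theorem mw_gkl_wnorm_eq (w : AbsoluteValue ↥K' ℝ) {ι : Type} [Fintype ι] (v : ι → mw_K)
    (hv : ∀ i, v i ∈ K') : mw_wnorm K' w v = ⨆ i, w ⟨v i, hv i⟩ := by
  rw [mw_wnorm]
  congr 1
  funext i
  exact mw_la_wabs_of_mem K' w (hv i)

theorem mw_gkl_finrank_pos : (0 : ℝ) < (Module.finrank ℚ ↥K' : ℝ) := by
  have : 0 < Module.finrank ℚ ↥K' := Module.finrank_pos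
  exact_mod_cast this

/-- the global sum of the local log-norms of a tuple with coordinates in `K'` -/
theorem mw_gkl_S_wnorm (hABS : mw_SeamABS) {ι : Type} [Fintype ι] (v : ι → mw_K)
    (hv : ∀ i, v i ∈ K') :
    mw_gkl_Fin (fun w : AbsoluteValue ↥K' ℝ => Real.log (mw_wnorm K' w v)) ∧
      mw_gkl_S (fun w : AbsoluteValue ↥K' ℝ => Real.log (mw_wnorm K' w v))
        = (Module.finrank ℚ ↥K' : ℝ) * mw_ht v := by
  have e : (fun w : AbsoluteValue ↥K' ℝ => Real.log (mw_wnorm K' w v))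
      = fun w => Real.log (⨆ i, w (⟨v i, hv i⟩ : ↥K')) := by
    funext w
    rw [mw_gkl_wnorm_eq K' w v hv]
  rw [e]
  obtain ⟨h1, h2⟩ := mw_gkl_S_logNorm (K := ↥K') (fun i => (⟨v i, hv i⟩ : ↥K'))
  refine ⟨h1, ?_⟩
  rw [h2]
  have h3 := hABS K' (fun i => (⟨v i, hv i⟩ : ↥K'))
  have h4 : mw_ht (fun i => (((⟨v i, hv i⟩ : ↥K') : ↥K') : mw_K)) = mw_ht v := rfl
  rw [h4] at h3
  rw [← h3, mw_htIn]
  have := (mw_gkl_finrank_pos K').ne'
  field_simp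

/-- the global sum of the local absolute values of an element of `K'` -/
theorem mw_gkl_S_wabs {c : mw_K} (hc : c ∈ K') :
    mw_gkl_Fin (fun w : AbsoluteValue ↥K' ℝ => Real.log (mw_wabs K' w c)) ∧
      mw_gkl_S (fun w : AbsoluteValue ↥K' ℝ => Real.log (mw_wabs K' w c)) = 0 := by
  have e : (fun w : AbsoluteValue ↥K' ℝ => Real.log (mw_wabs K' w c))
      = fun w => Real.log (w (⟨c, hc⟩ : ↥K')) := by
    funext w
    rw [mw_la_wabs_of_mem K' w hc]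
  rw [e]
  exact mw_gkl_S_log _

/-- a ratio term `log (‖A‖ / (‖B‖ ‖C‖))` -/
theorem mw_gkl_S_ratio (hABS : mw_SeamABS) {ιA ιB ιC : Type} [Fintype ιA] [Fintype ιB]
    [Fintype ιC] {A : ιA → mw_K} {B : ιB → mw_K} {C : ιC → mw_K}
    (hA : ∀ i, A i ∈ K') (hB : ∀ i, B i ∈ K') (hC : ∀ i, C i ∈ K')
    (hA0 : A ≠ 0) (hB0 : B ≠ 0) (hC0 : C ≠ 0) :
    mw_gkl_Fin (fun w : AbsoluteValue ↥K' ℝ =>
        Real.log (mw_wnorm K' w A / (mw_wnorm K' w B * mw_wnorm K' w C))) ∧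
      mw_gkl_S (fun w : AbsoluteValue ↥K' ℝ =>
        Real.log (mw_wnorm K' w A / (mw_wnorm K' w B * mw_wnorm K' w C)))
        = (Module.finrank ℚ ↥K' : ℝ) * (mw_ht A - mw_ht B - mw_ht C) := by
  have e : (fun w : AbsoluteValue ↥K' ℝ =>
        Real.log (mw_wnorm K' w A / (mw_wnorm K' w B * mw_wnorm K' w C)))
      = fun w => (Real.log (mw_wnorm K' w A) - Real.log (mw_wnorm K' w B))
          - Real.log (mw_wnorm K' w C) := by
    funext w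
    have h1 := (mw_la_wnorm_pos K' w hA0 hA).ne'
    have h2 := (mw_la_wnorm_pos K' w hB0 hB).ne'
    have h3 := (mw_la_wnorm_pos K' w hC0 hC).ne'
    rw [Real.log_div h1 (mul_ne_zero h2 h3), Real.log_mul h2 h3]
    ring
  rw [e]
  obtain ⟨fA, sA⟩ := mw_gkl_S_wnorm K' hABS A hA
  obtain ⟨fB, sB⟩ := mw_gkl_S_wnorm K' hABS B hB
  obtain ⟨fC, sC⟩ := mw_gkl_S_wnorm K' hABS C hC
  refine ⟨mw_gkl_fin_sub (mw_gkl_fin_sub fA fB) fC, ?_⟩
  rw [mw_gkl_S_sub (mw_gkl_fin_sub fA fB) fC, mw_gkl_S_sub fA fB, sA, sB, sC]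
  ring

/-- **from local to global.**  A local estimate of the shape of `[KLμ]` at every place of `K'`
gives the global identity of heights up to `γ + ∑_p c_p log p`. -/
theorem mw_gkl_global (hABS : mw_SeamABS) {γ : ℝ} {cp : ℕ → ℝ} (hcp : ∀ p, 0 ≤ cp p)
    (hfin : {p | cp p ≠ 0}.Finite) {r : ℕ} {ι₁ ι₂ Z : Type} [Fintype ι₁] [Fintype ι₂]
    (cc : ι₁ → mw_K) (yP : ι₂ → mw_K) (lc : mw_K) (u τ : Fin (r + 1) → mw_K) (μ : ℕ)
    (T : Finset Z) (n : Z → ℝ) (xz : Z → Fin (r + 1) → mw_K)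
    (hcc : ∀ i, cc i ∈ K') (hyP : ∀ i, yP i ∈ K') (hlc : lc ∈ K') (hu : ∀ i, u i ∈ K')
    (hxz : ∀ z ∈ T, ∀ i, xz z i ∈ K') (hτ : 1 ≤ μ → ∀ i, τ i ∈ K')
    (hcc0 : cc ≠ 0) (hyP0 : yP ≠ 0) (hlc0 : lc ≠ 0) (hu0 : u ≠ 0)
    (hxz0 : ∀ z ∈ T, xz z ≠ 0) (hw0 : ∀ z ∈ T, mw_wedge u (xz z) ≠ 0)
    (hτ0 : 1 ≤ μ → mw_wedge τ u ≠ 0)
    (hloc : ∀ (w : AbsoluteValue ↥K' ℝ) (bnd : ℝ), mw_IsBound K' w γ cp bnd →
      |Real.log (mw_wabs K' w lc / (mw_wnorm K' w cc * mw_wnorm K' w yP))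
        - ((μ : ℝ) * Real.log (mw_wnorm K' w (mw_wedge τ u) / mw_wnorm K' w u ^ 2)
            + ∑ z ∈ T, n z * Real.log (mw_delta K' w u (xz z)))| ≤ bnd) :
    |(∑ z ∈ T, n z * (mw_ht u + mw_ht (xz z) - mw_ht (mw_wedge u (xz z))))
      - (mw_ht yP + mw_ht cc + (μ : ℝ) * (mw_ht (mw_wedge τ u) - 2 * mw_ht u))|
      ≤ γ + ∑ p ∈ hfin.toFinset, cp p * Real.log p := by
  have hd := mw_gkl_finrank_pos K'
  set d : ℝ := (Module.finrank ℚ ↥K' : ℝ) with hd_def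
  -- membership of wedges
  have hwedge : ∀ {a b : Fin (r + 1) → mw_K}, (∀ i, a i ∈ K') → (∀ i, b i ∈ K') →
      ∀ p, mw_wedge a b p ∈ K' := by
    intro a b ha hb p
    rw [mw_wedge]
    exact K'.sub_mem (K'.mul_mem (ha _) (hb _)) (K'.mul_mem (ha _) (hb _))
  -- the pieces
  set Φ₀ : AbsoluteValue ↥K' ℝ → ℝ := fun w =>
    Real.log (mw_wabs K' w lc / (mw_wnorm K' w cc * mw_wnorm K' w yP)) with hΦ₀
  set Φ₁ : AbsoluteValue ↥K' ℝ → ℝ := fun w =>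
    (μ : ℝ) * Real.log (mw_wnorm K' w (mw_wedge τ u) / mw_wnorm K' w u ^ 2) with hΦ₁
  set Φ₂ : AbsoluteValue ↥K' ℝ → ℝ := fun w =>
    ∑ z ∈ T, n z * Real.log (mw_delta K' w u (xz z)) with hΦ₂
  -- Φ₀
  have h0 : mw_gkl_Fin Φ₀ ∧ mw_gkl_S Φ₀ = d * (-(mw_ht cc) - mw_ht yP) := by
    have e : Φ₀ = fun w => Real.log (mw_wabs K' w lc)
        - (Real.log (mw_wnorm K' w cc) + Real.log (mw_wnorm K' w yP)) := by
      funext w
      have h1 := (mw_la_wabs_pos K' w hlc hlc0).ne'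
      have h2 := (mw_la_wnorm_pos K' w hcc0 hcc).ne'
      have h3 := (mw_la_wnorm_pos K' w hyP0 hyP).ne'
      rw [hΦ₀]
      simp only
      rw [Real.log_div h1 (mul_ne_zero h2 h3), Real.log_mul h2 h3]
    obtain ⟨f1, s1⟩ := mw_gkl_S_wabs K' hlc
    obtain ⟨f2, s2⟩ := mw_gkl_S_wnorm K' hABS cc hcc
    obtain ⟨f3, s3⟩ := mw_gkl_S_wnorm K' hABS yP hyP
    rw [e]
    refine ⟨mw_gkl_fin_sub f1 (mw_gkl_fin_add f2 f3), ?_⟩
    rw [mw_gkl_S_sub f1 (mw_gkl_fin_add f2 f3), mw_gkl_S_add f2 f3, s1, s2, s3]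
    ring
  -- Φ₁
  have h1 : mw_gkl_Fin Φ₁ ∧
      mw_gkl_S Φ₁ = d * ((μ : ℝ) * (mw_ht (mw_wedge τ u) - 2 * mw_ht u)) := by
    by_cases hμ : 1 ≤ μ
    · obtain ⟨f1, s1⟩ := mw_gkl_S_ratio K' hABS (hwedge (hτ hμ) hu) hu hu (hτ0 hμ) hu0 hu0
      have e : Φ₁ = fun w => (μ : ℝ) *
          Real.log (mw_wnorm K' w (mw_wedge τ u) / (mw_wnorm K' w u * mw_wnorm K' w u)) := by
        funext w
        rw [hΦ₁]
        simp only
        rw [sq]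
      rw [e]
      refine ⟨mw_gkl_fin_smul _ f1, ?_⟩
      rw [mw_gkl_S_smul, s1]
      ring
    · have hμ0 : μ = 0 := by omega
      have e : Φ₁ = fun _ => (0 : ℝ) := by
        funext w
        rw [hΦ₁]
        simp only
        rw [hμ0, Nat.cast_zero, zero_mul]
      rw [e, hμ0, Nat.cast_zero, zero_mul, mul_zero]
      exact ⟨mw_gkl_fin_zero, mw_gkl_S_zero⟩
  -- Φ₂
  have hterm : ∀ z ∈ T, mw_gkl_Fin (fun w : AbsoluteValue ↥K' ℝ =>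
        n z * Real.log (mw_delta K' w u (xz z))) ∧
      mw_gkl_S (fun w : AbsoluteValue ↥K' ℝ => n z * Real.log (mw_delta K' w u (xz z)))
        = n z * (d * (mw_ht (mw_wedge u (xz z)) - mw_ht u - mw_ht (xz z))) := by
    intro z hz
    obtain ⟨f1, s1⟩ := mw_gkl_S_ratio K' hABS (hwedge hu (hxz z hz)) hu (hxz z hz) (hw0 z hz) hu0
      (hxz0 z hz)
    refine ⟨mw_gkl_fin_smul _ f1, ?_⟩
    rw [mw_gkl_S_smul]
    congr 1
  have h2 : mw_gkl_Fin Φ₂ ∧ mw_gkl_S Φ₂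
      = ∑ z ∈ T, n z * (d * (mw_ht (mw_wedge u (xz z)) - mw_ht u - mw_ht (xz z))) := by
    refine ⟨mw_gkl_fin_sum T fun z hz => (hterm z hz).1, ?_⟩
    rw [hΦ₂, mw_gkl_S_sum T fun z hz => (hterm z hz).1]
    exact Finset.sum_congr rfl fun z hz => (hterm z hz).2
  -- the total
  set Φ : AbsoluteValue ↥K' ℝ → ℝ := fun w => Φ₀ w - (Φ₁ w + Φ₂ w) with hΦ
  have hΦfin : mw_gkl_Fin Φ := mw_gkl_fin_sub h0.1 (mw_gkl_fin_add h1.1 h2.1)
  have hΦS : mw_gkl_S Φ = d * ((∑ z ∈ T, n z * (mw_ht u + mw_ht (xz z)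
      - mw_ht (mw_wedge u (xz z))))
      - (mw_ht yP + mw_ht cc + (μ : ℝ) * (mw_ht (mw_wedge τ u) - 2 * mw_ht u))) := by
    rw [hΦ, mw_gkl_S_sub h0.1 (mw_gkl_fin_add h1.1 h2.1), mw_gkl_S_add h1.1 h2.1, h0.2, h1.2,
      h2.2]
    have hsum : ∑ z ∈ T, n z * (d * (mw_ht (mw_wedge u (xz z)) - mw_ht u - mw_ht (xz z)))
        = -(d * ∑ z ∈ T, n z * (mw_ht u + mw_ht (xz z) - mw_ht (mw_wedge u (xz z)))) := by
      rw [Finset.mul_sum, ← Finset.sum_neg_distrib]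
      exact Finset.sum_congr rfl fun z _ => by ring
    rw [hsum]
    ring
  have hbound := mw_gkl_S_bound (K := ↥K') (γ := γ) hcp hfin hΦfin
    (fun w hw => hloc w γ (Or.inl ⟨hw, rfl⟩))
    (fun w hw p hp hp1 => hloc w _ (Or.inr ⟨hw, p, hp, hp1, rfl⟩))
  rw [hΦS, abs_mul, abs_of_pos hd] at hbound
  exact le_of_mul_le_mul_left hbound hd

end Fermat.Agent.MW
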