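/-
Project MW (S17), global leaf [HDLB] (helper18): `h(u ∧ v) ≤ h(u) + h(v) + log 2`.  Prefix `mw_gkl_`.
-/
import Fermat.Agent.MW.Global.GKL.Global

set_option autoImplicit false
set_option linter.unusedSectionVars false

noncomputable section

namespace Fermat.Agent.MW

open Height AdmissibleAbsValues NumberField
open scoped Classical

theorem mw_gkl_ht_nonneg {ι : Type} [Finite ι] (v : ι → mw_K) : 0 ≤ mw_ht v := by
  rw [mw_ht, mw_htIn]
  exact div_nonneg (logHeight_nonneg _) (Nat.cast_nonneg _)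

theorem mw_gkl_ht_zero {ι : Type} [Finite ι] : mw_ht (0 : ι → mw_K) = 0 := by
  rw [mw_ht, mw_htIn]
  have : (fun i => (⟨(0 : ι → mw_K) i, IntermediateField.subset_adjoin ℚ _ ⟨i, rfl⟩⟩ :
      ↥(mw_field (0 : ι → mw_K)))) = 0 := by
    funext i
    apply Subtype.ext
    rfl
  rw [this, logHeight_zero, zero_div]

/-- the local inequality `‖u ∧ v‖_w ≤ c ‖u‖_w ‖v‖_w` -/
theorem mw_gkl_wnorm_wedge_le (K' : IntermediateField ℚ mw_K) (w : AbsoluteValue ↥K' ℝ) {r : ℕ}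
    {u v : Fin (r + 1) → mw_K} (hu : ∀ i, u i ∈ K') (hv : ∀ i, v i ∈ K') :
    mw_wnorm K' w (mw_wedge u v) ≤ 2 * (mw_wnorm K' w u * mw_wnorm K' w v) ∧
      (IsNonarchimedean w → mw_wnorm K' w (mw_wedge u v) ≤ mw_wnorm K' w u * mw_wnorm K' w v) := by
  have hnu := mw_la_wnorm_nonneg K' w u
  have hnv := mw_la_wnorm_nonneg K' w v
  have hprod : ∀ a b, w (⟨u a, hu a⟩ * ⟨v b, hv b⟩) ≤ mw_wnorm K' w u * mw_wnorm K' w v := by
    intro a b
    rw [w.map_mul]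
    have h1 := mw_la_le_wnorm K' w u a
    have h2 := mw_la_le_wnorm K' w v b
    rw [mw_la_wabs_of_mem K' w (hu a)] at h1
    rw [mw_la_wabs_of_mem K' w (hv b)] at h2
    exact mul_le_mul h1 h2 (w.nonneg _) hnu
  have hmem : ∀ p : Fin (r + 1) × Fin (r + 1), mw_wedge u v p ∈ K' := fun p =>
    K'.sub_mem (K'.mul_mem (hu _) (hv _)) (K'.mul_mem (hu _) (hv _))
  have hval : ∀ p : Fin (r + 1) × Fin (r + 1), mw_wabs K' w (mw_wedge u v p)
      = w (⟨u p.1, hu p.1⟩ * ⟨v p.2, hv p.2⟩ - ⟨u p.2, hu p.2⟩ * ⟨v p.1, hv p.1⟩) := by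
    intro p
    rw [mw_la_wabs_of_mem K' w (hmem p)]
    rfl
  constructor
  · refine ciSup_le fun p => ?_
    rw [hval p]
    calc w (⟨u p.1, hu p.1⟩ * ⟨v p.2, hv p.2⟩ - ⟨u p.2, hu p.2⟩ * ⟨v p.1, hv p.1⟩)
        ≤ w (⟨u p.1, hu p.1⟩ * ⟨v p.2, hv p.2⟩) + w (⟨u p.2, hu p.2⟩ * ⟨v p.1, hv p.1⟩) :=
          w.sub_le_add _ _
      _ ≤ mw_wnorm K' w u * mw_wnorm K' w v + mw_wnorm K' w u * mw_wnorm K' w v :=
          add_le_add (hprod _ _) (hprod _ _)
      _ = 2 * (mw_wnorm K' w u * mw_wnorm K' w v) := by ring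
  · intro hna
    refine ciSup_le fun p => ?_
    rw [hval p, sub_eq_add_neg]
    refine (hna _ _).trans (max_le (hprod _ _) ?_)
    rw [w.map_neg]
    exact hprod _ _

/-- **the height of a wedge** -/
theorem mw_gkl_ht_wedge_le (hABS : mw_SeamABS) {r : ℕ} (u v : Fin (r + 1) → mw_K) :
    mw_ht (mw_wedge u v) ≤ mw_ht u + mw_ht v + Real.log 2 := by
  have hlog2 : 0 ≤ Real.log 2 := Real.log_nonneg (by norm_num)
  by_cases h0 : mw_wedge u v = 0
  · rw [h0, mw_gkl_ht_zero]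
    have := mw_gkl_ht_nonneg u
    have := mw_gkl_ht_nonneg v
    linarith
  have hu0 : u ≠ 0 := by
    rintro rfl
    apply h0
    funext p
    simp [mw_wedge]
  have hv0 : v ≠ 0 := by
    rintro rfl
    apply h0
    funext p
    simp [mw_wedge]
  set K' : IntermediateField ℚ mw_K := mw_field (Sum.elim u v) with hK'
  have hu : ∀ i, u i ∈ K' := fun i => IntermediateField.subset_adjoin ℚ _ ⟨Sum.inl i, rfl⟩
  have hv : ∀ i, v i ∈ K' := fun i => IntermediateField.subset_adjoin ℚ _ ⟨Sum.inr i, rfl⟩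
  have hwd : ∀ p, mw_wedge u v p ∈ K' := fun p =>
    K'.sub_mem (K'.mul_mem (hu _) (hv _)) (K'.mul_mem (hu _) (hv _))
  have hd := mw_gkl_finrank_pos K'
  obtain ⟨fW, sW⟩ := mw_gkl_S_wnorm K' hABS (mw_wedge u v) hwd
  obtain ⟨fU, sU⟩ := mw_gkl_S_wnorm K' hABS u hu
  obtain ⟨fV, sV⟩ := mw_gkl_S_wnorm K' hABS v hv
  have hposW : ∀ w : AbsoluteValue ↥K' ℝ, 0 < mw_wnorm K' w (mw_wedge u v) := fun w =>
    mw_la_wnorm_pos K' w h0 hwd
  have hposU : ∀ w : AbsoluteValue ↥K' ℝ, 0 < mw_wnorm K' w u := fun w =>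
    mw_la_wnorm_pos K' w hu0 hu
  have hposV : ∀ w : AbsoluteValue ↥K' ℝ, 0 < mw_wnorm K' w v := fun w =>
    mw_la_wnorm_pos K' w hv0 hv
  -- archimedean part
  have ha : mw_gkl_Sa (fun w : AbsoluteValue ↥K' ℝ => Real.log (mw_wnorm K' w (mw_wedge u v)))
      ≤ mw_gkl_Sa (fun w : AbsoluteValue ↥K' ℝ => Real.log (mw_wnorm K' w u))
        + mw_gkl_Sa (fun w : AbsoluteValue ↥K' ℝ => Real.log (mw_wnorm K' w v))
        + (Module.finrank ℚ ↥K' : ℝ) * Real.log 2 := by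
    rw [← mw_gkl_Sa_const (K := ↥K') (Real.log 2), ← mw_gkl_Sa_add, ← mw_gkl_Sa_add]
    refine mw_gkl_Sa_le fun w _ => ?_
    have h1 := (mw_gkl_wnorm_wedge_le K' w hu hv).1
    have h2 := Real.log_le_log (hposW w) h1
    rw [Real.log_mul (by norm_num) (mul_pos (hposU w) (hposV w)).ne',
      Real.log_mul (hposU w).ne' (hposV w).ne'] at h2
    linarith
  -- nonarchimedean part
  have hf : mw_gkl_Sf (fun w : AbsoluteValue ↥K' ℝ => Real.log (mw_wnorm K' w (mw_wedge u v)))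
      ≤ mw_gkl_Sf (fun w : AbsoluteValue ↥K' ℝ => Real.log (mw_wnorm K' w u))
        + mw_gkl_Sf (fun w : AbsoluteValue ↥K' ℝ => Real.log (mw_wnorm K' w v)) := by
    rw [← mw_gkl_Sf_add fU fV]
    refine mw_gkl_Sf_le fW (mw_gkl_fin_add fU fV) fun w hw => ?_
    have h1 := (mw_gkl_wnorm_wedge_le K' w hu hv).2 (isNonarchimedean w hw)
    have h2 := Real.log_le_log (hposW w) h1
    rwa [Real.log_mul (hposU w).ne' (hposV w).ne'] at h2
  rw [mw_gkl_S_eq] at sW sU sV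
  have : (Module.finrank ℚ ↥K' : ℝ) * mw_ht (mw_wedge u v)
      ≤ (Module.finrank ℚ ↥K' : ℝ) * (mw_ht u + mw_ht v + Real.log 2) := by
    rw [mul_add, mul_add, ← sW, ← sU, ← sV]
    linarith
  exact le_of_mul_le_mul_left this hd

end Fermat.Agent.MW
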