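/-
Project MW (S17), summation over the places (helper18): ONE-SIDED versions of `mw_gkl_S_bound`
(Mathlib only), for the leaves that sum a local INEQUALITY ([VDMC], [BL↓], …).  Prefix `mw_gkl_`.
-/
import Fermat.Agent.MW.Global.GKL.Sum

set_option autoImplicit false

noncomputable section

namespace Fermat.Agent.MW

open Height AdmissibleAbsValues NumberField

variable {K : Type*} [Field K] [NumberField K]

/-- upper bound: `Φ w ≤ γ` at the infinite places, `Φ w ≤ -c_p log |p|_w` at the places over `p`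
⟹ `S Φ ≤ [K : ℚ] (γ + ∑_p c_p log p)` -/
theorem mw_gkl_S_le_bound {γ : ℝ} {cp : ℕ → ℝ} (hγ : 0 ≤ γ) (hcp : ∀ p, 0 ≤ cp p)
    (hfin : {p | cp p ≠ 0}.Finite) {Φ : AbsoluteValue K ℝ → ℝ} (hΦ : mw_gkl_Fin Φ)
    (harch : ∀ w ∈ archAbsVal (K := K), Φ w ≤ γ)
    (hnon : ∀ w ∈ nonarchAbsVal (K := K), ∀ p : ℕ, p.Prime → w (p : K) < 1 →
      Φ w ≤ -(cp p * Real.log (w (p : K)))) :
    mw_gkl_S Φ ≤ (Module.finrank ℚ K : ℝ) * (γ + ∑ p ∈ hfin.toFinset, cp p * Real.log p) := by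
  set Ψ : AbsoluteValue K ℝ → ℝ := fun w => max (Φ w) 0 with hΨ
  have hΨfin : mw_gkl_Fin Ψ := by
    refine hΦ.subset fun v hv => ?_
    simp only [Function.mem_support] at hv ⊢
    intro h
    apply hv
    rw [hΨ]
    simp only
    rw [h, max_self]
  have h1 : mw_gkl_S Φ ≤ mw_gkl_S Ψ :=
    mw_gkl_S_le hΦ hΨfin (fun w _ => le_max_left _ _) (fun w _ => le_max_left _ _)
  have h2 := mw_gkl_S_bound (K := K) (γ := γ) hcp hfin hΨfin
    (fun w hw => by
      rw [abs_of_nonneg (le_max_right _ _)]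
      exact max_le (harch w hw) hγ)
    (fun w hw p hp hp1 => by
      rw [abs_of_nonneg (le_max_right _ _)]
      refine max_le (hnon w hw p hp hp1) ?_
      have h3 : Real.log (w (p : K)) ≤ 0 := Real.log_nonpos (w.nonneg _) hp1.le
      have := hcp p
      nlinarith)
  exact h1.trans ((le_abs_self _).trans h2)

/-- lower bound -/
theorem mw_gkl_S_ge_bound {γ : ℝ} {cp : ℕ → ℝ} (hγ : 0 ≤ γ) (hcp : ∀ p, 0 ≤ cp p)
    (hfin : {p | cp p ≠ 0}.Finite) {Φ : AbsoluteValue K ℝ → ℝ} (hΦ : mw_gkl_Fin Φ)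
    (harch : ∀ w ∈ archAbsVal (K := K), -γ ≤ Φ w)
    (hnon : ∀ w ∈ nonarchAbsVal (K := K), ∀ p : ℕ, p.Prime → w (p : K) < 1 →
      cp p * Real.log (w (p : K)) ≤ Φ w) :
    -((Module.finrank ℚ K : ℝ) * (γ + ∑ p ∈ hfin.toFinset, cp p * Real.log p)) ≤ mw_gkl_S Φ := by
  have := mw_gkl_S_le_bound (K := K) hγ hcp hfin (mw_gkl_fin_neg hΦ)
    (fun w hw => by have := harch w hw; linarith)
    (fun w hw p hp hp1 => by have := hnon w hw p hp hp1; linarith)
  rw [mw_gkl_S_neg] at this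
  linarith

end Fermat.Agent.MW
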